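import Mathlib
import Fermat.Agent.MUL.Lib.BadRed.ALAlg
import Fermat.Agent.MUL.F3.DictC.GensExp
import Fermat.Agent.MUL.Orig.F3.Galois.Intertwine

section MergeWrap_F3_I2_Deg_ALC -- from F3/I2/Deg/ALC.lean

set_option autoImplicit false
set_option linter.unusedVariables false
set_option linter.style.haveILetI false

noncomputable section

namespace Fermat.Agent.F3DegW

open UpperHalfPlane Fermat.Agent.F3Dict ModularCurve
open Fermat.Agent.AtkinLehner (ALData)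
open scoped MatrixGroups

theorem scale_WC (D : ALData) (d₁ e₁ d₂ f₂ : ℕ) [NeZero (d₁ * d₂)] [NeZero (e₁ * d₂)]
    (h1 : d₁ * e₁ = D.Q) (h2 : d₂ * f₂ = D.R) (τ : ℍ) :
    scale (d₁ * d₂) (D.W τ) = D.gam d₁ e₁ d₂ f₂ h1 h2 • scale (e₁ * d₂) τ := by
  apply UpperHalfPlane.ext
  rw [coe_scale, ALData.coe_W, GensExp.coe_sl2_smul, coe_scale]
  have hne := D.denom_ne_zero τ
  have hd1 : (d₁ : ℂ) ≠ 0 := by
    have : d₁ ≠ 0 := fun h => by
      rw [h, zero_mul] at h1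
      exact D.hQ.ne' h1.symm
    exact_mod_cast this
  have e1 : ((D.gam d₁ e₁ d₂ f₂ h1 h2) 0 0 : ℤ) = (d₁ : ℤ) * D.a := rfl
  have e2 : ((D.gam d₁ e₁ d₂ f₂ h1 h2) 0 1 : ℤ) = (d₂ : ℤ) * D.b := rfl
  have e3 : ((D.gam d₁ e₁ d₂ f₂ h1 h2) 1 0 : ℤ) = (f₂ : ℤ) := rfl
  have e4 : ((D.gam d₁ e₁ d₂ f₂ h1 h2) 1 1 : ℤ) = (e₁ : ℤ) := rfl
  rw [e1, e2, e3, e4]
  have hQ : (D.Q : ℂ) = (d₁ : ℂ) * (e₁ : ℂ) := by exact_mod_cast h1.symm
  have hR : (D.R : ℂ) = (d₂ : ℂ) * (f₂ : ℂ) := by exact_mod_cast h2.symm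
  have hden2 : ((f₂ : ℤ) : ℂ) * (((e₁ * d₂ : ℕ) : ℂ) * (τ : ℂ)) + ((e₁ : ℤ) : ℂ) ≠ 0 := by
    intro h0
    apply hne
    rw [hQ, hR]
    push_cast at h0 ⊢
    linear_combination (d₁ : ℂ) * h0
  rw [hQ, hR] at hne ⊢
  push_cast at hden2 ⊢
  field_simp

/-- **`j_{d₁ d₂} ∘ W = j_{e₁ d₂}`** for `d₁ e₁ = Q`, `d₂ ∣ R`. -/
theorem jd_WC (D : ALData) (d₁ e₁ d₂ f₂ : ℕ) [NeZero (d₁ * d₂)] [NeZero (e₁ * d₂)]
    (h1 : d₁ * e₁ = D.Q) (h2 : d₂ * f₂ = D.R) (τ : ℍ) :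
    jd (d₁ * d₂) (D.W τ) = jd (e₁ * d₂) τ := by
  show jFun (scale (d₁ * d₂) (D.W τ)) = jFun (scale (e₁ * d₂) τ)
  rw [scale_WC D d₁ e₁ d₂ f₂ h1 h2 τ, GensExp.jFun_smul_pt]


/-! ### the algebra `B_N` and its expansion -/

/-- the functions `j_d`, `d ∣ N`. -/
def funGens (N : ℕ) : Set Fun := {f | ∃ (d : ℕ) (_ : NeZero d), d ∣ N ∧ f = jd d}

/-- the algebra `ℂ[j_d : d ∣ N]` of functions on the upper half plane. -/
def BN (N : ℕ) : Subalgebra Kc Fun := Algebra.adjoin Kc (funGens N)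

theorem jd_mem_BN {N d : ℕ} [NeZero d] (hd : d ∣ N) : jd d ∈ BN N :=
  Algebra.subset_adjoin ⟨d, ‹_›, hd, rfl⟩

/-- the `q`-expansion of `j_d` is `j(q^d)`. -/
theorem hasExp_one_jd (d : ℕ) [NeZero d] :
    HasExp 1 (jd d) (qExpand Kc d (jqModC Kc)) := by
  have hd0 : 0 < d := Nat.pos_of_ne_zero (NeZero.ne d)
  rw [GensExp.qExpand_jqModC]
  have hφ : ∀ τ : ℍ, uParam 1 (scale d τ) = iota 1 * uParam 1 τ ^ d := by
    intro τ
    rw [uParam_one_scale 1 d τ, map_one, one_mul, one_mul]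
  exact GensExp.hasExp_subst hasPExp_jFun (scale d) 1 GensExp.iota_one_norm d hd0 hφ

theorem exists_hasExp_of_mem_BN (N : ℕ) {f : Fun} (hf : f ∈ BN N) :
    ∃ a : LaurentSeries Kc, HasExp 1 f a := by
  induction hf using Algebra.adjoin_induction with
  | mem x hx =>
    obtain ⟨d, hd, -, rfl⟩ := hx
    exact ⟨_, hasExp_one_jd d⟩
  | algebraMap c => exact ⟨_, HasExp.algebraMap 1 c⟩
  | add x y _ _ hx hy =>
    obtain ⟨a, ha⟩ := hx
    obtain ⟨b, hb⟩ := hy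
    exact ⟨a + b, ha.add hb⟩
  | mul x y _ _ hx hy =>
    obtain ⟨a, ha⟩ := hx
    obtain ⟨b, hb⟩ := hy
    exact ⟨a * b, ha.mul hb⟩

/-- the `q`-expansion of an element of `B_N`. -/
def expBFun (N : ℕ) (f : BN N) : LaurentSeries Kc :=
  (exists_hasExp_of_mem_BN N f.2).choose

theorem hasExp_expBFun (N : ℕ) (f : BN N) : HasExp 1 (f : Fun) (expBFun N f) :=
  (exists_hasExp_of_mem_BN N f.2).choose_spec

theorem expBFun_eq (N : ℕ) (f : BN N) {a : LaurentSeries Kc}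
    (h : HasExp 1 (f : Fun) a) : expBFun N f = a :=
  (hasExp_expBFun N f).unique h

/-- the `q`-expansion as an algebra homomorphism. -/
def expB (N : ℕ) : BN N →ₐ[Kc] LaurentSeries Kc where
  toFun := expBFun N
  map_one' := by
    apply expBFun_eq
    have h := HasExp.algebraMap 1 (1 : Kc)
    rwa [map_one, map_one] at h
  map_mul' f g := expBFun_eq N _ ((hasExp_expBFun N f).mul (hasExp_expBFun N g))
  map_zero' := by
    apply expBFun_eq
    have h := HasExp.algebraMap 1 (0 : Kc)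
    rwa [map_zero, map_zero] at h
  map_add' f g := expBFun_eq N _ ((hasExp_expBFun N f).add (hasExp_expBFun N g))
  commutes' c := expBFun_eq N _ (HasExp.algebraMap 1 c)

theorem hasExp_expB (N : ℕ) (f : BN N) : HasExp 1 (f : Fun) (expB N f) :=
  hasExp_expBFun N f

theorem expB_eq (N : ℕ) (f : BN N) {a : LaurentSeries Kc}
    (h : HasExp 1 (f : Fun) a) : expB N f = a :=
  expBFun_eq N f h

theorem expB_injective (N : ℕ) : Function.Injective (expB N) := by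
  intro f g h
  apply Subtype.ext
  have hf := hasExp_expB N f
  have hg := hasExp_expB N g
  rw [h] at hf
  exact hf.fun_unique hg

instance instIsDomainBN (N : ℕ) : IsDomain (BN N) :=
  (expB_injective N).isDomain (expB N).toRingHom

/-- `j_d` as an element of `B_N`. -/
def jdB (N d : ℕ) [NeZero d] (hd : d ∣ N) : BN N := ⟨jd d, jd_mem_BN hd⟩

theorem expB_jdB (N d : ℕ) [NeZero d] (hd : d ∣ N) :
    expB N (jdB N d hd) = qExpand Kc d (jqModC Kc) :=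
  expB_eq N _ (hasExp_one_jd d)

/-- the Laurent series `j(q^d)`, `d ∣ N`. -/
def serGens (N : ℕ) : Set (LaurentSeries Kc) :=
  {x | ∃ (d : ℕ) (_ : NeZero d), d ∣ N ∧ x = qExpand Kc d (jqModC Kc)}

theorem range_expB (N : ℕ) : (expB N).range = Algebra.adjoin Kc (serGens N) := by
  have h1 : (expB N).range = (⊤ : Subalgebra Kc (BN N)).map (expB N) := by
    rw [Algebra.map_top]
  have h2 : (⊤ : Subalgebra Kc (BN N)) =
      Algebra.adjoin Kc (((↑) : BN N → Fun) ⁻¹' funGens N) :=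
    (Algebra.adjoin_adjoin_coe_preimage).symm
  rw [h1, h2, AlgHom.map_adjoin]
  congr 1
  ext x
  constructor
  · rintro ⟨f, ⟨d, hd, hdN, hf⟩, rfl⟩
    refine ⟨d, hd, hdN, ?_⟩
    have : f = jdB N d hdN := Subtype.ext hf
    rw [this, expB_jdB]
  · rintro ⟨d, hd, hdN, rfl⟩
    exact ⟨jdB N d hdN, ⟨d, hd, hdN, rfl⟩, expB_jdB N d hdN⟩

/-! ### the Prelude's function field is generated by the `j(q^d)` over `ℂ` -/

theorem coeffEmb_qExpand_jq (d : ℕ) [NeZero d] :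
    coeffEmb Kc (qExpand ℚ d jq) = qExpand Kc d (jqModC Kc) := by
  unfold coeffEmb
  rw [coeffMap_qExpand, ← jqModC_rat, coeffMap_jqModC]

theorem coeffEmb_mem_adjoin_serGens (N : ℕ) {x : LaurentSeries ℚ}
    (hx : x ∈ modularFunctionFieldFull N) :
    coeffEmb Kc x ∈ IntermediateField.adjoin Kc (serGens N) := by
  unfold modularFunctionFieldFull at hx
  induction hx using IntermediateField.adjoin_induction with
  | mem x hx =>
    obtain ⟨d, hdne, hd, rfl⟩ := hx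
    rw [coeffEmb_qExpand_jq]
    exact IntermediateField.subset_adjoin Kc _ ⟨d, hdne, hd, rfl⟩
  | algebraMap c =>
    have h1 : coeffEmb Kc (algebraMap ℚ (LaurentSeries ℚ) c) =
        ((c : ℚ) : LaurentSeries Kc) := by
      rw [eq_ratCast, map_ratCast]
    rw [h1]
    exact SubfieldClass.ratCast_mem _ c
  | add x y _ _ hx hy =>
    rw [map_add]
    exact add_mem hx hy
  | inv x _ hx =>
    rw [map_inv₀]
    exact inv_mem hx
  | mul x y _ _ hx hy =>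
    rw [map_mul]
    exact mul_mem hx hy

theorem FC_eq_adjoin (N : ℕ) :
    FC N = IntermediateField.adjoin Kc (serGens N) := by
  apply le_antisymm
  · unfold FC laurentBaseChange
    rw [IntermediateField.adjoin_le_iff]
    rintro _ ⟨x, hx, rfl⟩
    exact coeffEmb_mem_adjoin_serGens N hx
  · rw [IntermediateField.adjoin_le_iff]
    rintro _ ⟨d, hdne, hd, rfl⟩
    rw [← coeffEmb_qExpand_jq]
    exact coeffEmb_mem_laurentBaseChange Kc (jqd_mem_full N hd)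

/-! ### composition with `W` -/

/-- `f ↦ f ∘ W` on all functions. -/
def compW (D : ALData) : Fun →ₐ[Kc] Fun where
  toFun f := fun τ => f (D.W τ)
  map_one' := rfl
  map_mul' _ _ := rfl
  map_zero' := rfl
  map_add' _ _ := rfl
  commutes' _ := rfl

theorem compW_apply (D : ALData) (f : Fun) (τ : ℍ) : compW D f τ = f (D.W τ) := rfl

theorem compW_jd (D : ALData) (d₁ e₁ d₂ f₂ : ℕ) [NeZero (d₁ * d₂)] [NeZero (e₁ * d₂)]
    (h1 : d₁ * e₁ = D.Q) (h2 : d₂ * f₂ = D.R) :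
    compW D (jd (d₁ * d₂)) = jd (e₁ * d₂) := by
  ext τ
  exact jd_WC D d₁ e₁ d₂ f₂ h1 h2 τ

theorem compW_mem_BN (D : ALData) {f : Fun} (hf : f ∈ BN (D.Q * D.R)) :
    compW D f ∈ BN (D.Q * D.R) := by
  induction hf using Algebra.adjoin_induction with
  | mem x hx =>
    obtain ⟨d, hdne, hd, rfl⟩ := hx
    obtain ⟨d₁, e₁, d₂, f₂, h1, h2, rfl⟩ := Fermat.Agent.AtkinLehner.exists_factor D hd
    obtain ⟨p1, p2, p3, p4⟩ := Fermat.Agent.AtkinLehner.factor_pos D h1 h2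
    haveI : NeZero (e₁ * d₂) := ⟨(Nat.mul_pos p2 p3).ne'⟩
    rw [compW_jd D d₁ e₁ d₂ f₂ h1 h2]
    refine jd_mem_BN ?_
    rw [← h1, ← h2]
    exact Nat.mul_dvd_mul (Dvd.intro_left d₁ rfl) (Dvd.intro f₂ rfl)
  | algebraMap c =>
    rw [AlgHom.commutes]
    exact Subalgebra.algebraMap_mem _ c
  | add x y _ _ hx hy =>
    rw [map_add]
    exact add_mem hx hy
  | mul x y _ _ hx hy =>
    rw [map_mul]
    exact mul_mem hx hy

theorem compW_compW (D : ALData) {f : Fun} (hf : f ∈ BN (D.Q * D.R)) :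
    compW D (compW D f) = f := by
  induction hf using Algebra.adjoin_induction with
  | mem x hx =>
    obtain ⟨d, hdne, hd, rfl⟩ := hx
    obtain ⟨d₁, e₁, d₂, f₂, h1, h2, rfl⟩ := Fermat.Agent.AtkinLehner.exists_factor D hd
    obtain ⟨p1, p2, p3, p4⟩ := Fermat.Agent.AtkinLehner.factor_pos D h1 h2
    haveI : NeZero (e₁ * d₂) := ⟨(Nat.mul_pos p2 p3).ne'⟩
    rw [compW_jd D d₁ e₁ d₂ f₂ h1 h2, compW_jd D e₁ d₁ d₂ f₂ ((mul_comm e₁ d₁).trans h1) h2]
  | algebraMap c =>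
    rw [AlgHom.commutes, AlgHom.commutes]
  | add x y _ _ hx hy =>
    rw [map_add, map_add, hx, hy]
  | mul x y _ _ hx hy =>
    rw [map_mul, map_mul, hx, hy]

/-- `f ↦ f ∘ W` on `B_N`, `N = Q R`. -/
def wBHom (D : ALData) : BN (D.Q * D.R) →ₐ[Kc] BN (D.Q * D.R) :=
  ((compW D).comp (BN (D.Q * D.R)).val).codRestrict (BN (D.Q * D.R))
    (fun f => compW_mem_BN D f.2)

theorem coe_wBHom (D : ALData) (f : BN (D.Q * D.R)) :
    ((wBHom D f : BN (D.Q * D.R)) : Fun) = compW D (f : Fun) := rfl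

theorem wBHom_wBHom (D : ALData) (f : BN (D.Q * D.R)) : wBHom D (wBHom D f) = f :=
  Subtype.ext (compW_compW D f.2)

/-- the Atkin–Lehner involution of `B_N`. -/
def wB (D : ALData) : BN (D.Q * D.R) ≃ₐ[Kc] BN (D.Q * D.R) :=
  AlgEquiv.ofAlgHom (wBHom D) (wBHom D)
    (AlgHom.ext fun f => wBHom_wBHom D f) (AlgHom.ext fun f => wBHom_wBHom D f)

theorem wB_apply (D : ALData) (f : BN (D.Q * D.R)) : wB D f = wBHom D f := rfl

theorem wB_wB (D : ALData) (f : BN (D.Q * D.R)) : wB D (wB D f) = f := wBHom_wBHom D f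

theorem wB_jdB (D : ALData) (d₁ e₁ d₂ f₂ : ℕ) [NeZero (d₁ * d₂)] [NeZero (e₁ * d₂)]
    (h1 : d₁ * e₁ = D.Q) (h2 : d₂ * f₂ = D.R) (hd : d₁ * d₂ ∣ D.Q * D.R)
    (hd' : e₁ * d₂ ∣ D.Q * D.R) :
    wB D (jdB (D.Q * D.R) (d₁ * d₂) hd) = jdB (D.Q * D.R) (e₁ * d₂) hd' :=
  Subtype.ext (compW_jd D d₁ e₁ d₂ f₂ h1 h2)


/-! ### `F_N = Frac (B_N)` -/

/-- the fraction field of `B_N`. -/
abbrev FB (N : ℕ) : Type := FractionRing (BN N)

/-- the `q`-expansion on `Frac (B_N)`. -/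
def expFB (N : ℕ) : FB N →ₐ[Kc] LaurentSeries Kc :=
  IsFractionRing.liftAlgHom (expB_injective N)

theorem expFB_algebraMap (N : ℕ) (f : BN N) :
    expFB N (algebraMap (BN N) (FB N) f) = expB N f := by
  unfold expFB
  rw [IsFractionRing.liftAlgHom_apply]
  exact IsFractionRing.lift_algebraMap _ _

theorem expFB_injective (N : ℕ) : Function.Injective (expFB N) :=
  (expFB N).toRingHom.injective

theorem fieldRange_expFB (N : ℕ) : (expFB N).fieldRange = FC N := by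
  rw [FC_eq_adjoin]
  exact IsFractionRing.liftAlgHom_fieldRange_eq_of_range_eq (expB_injective N) (range_expB N)

theorem expFB_mem (N : ℕ) (x : FB N) : expFB N x ∈ FC N := by
  rw [← fieldRange_expFB]
  exact ⟨x, rfl⟩

/-- the `q`-expansion `Frac (B_N) → F_N`. -/
def toF (N : ℕ) : FB N →ₐ[Kc] FC N :=
  (expFB N).codRestrict (FC N).toSubalgebra (expFB_mem N)

theorem coe_toF (N : ℕ) (x : FB N) :
    ((toF N x : FC N) : LaurentSeries Kc) = expFB N x := rfl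

theorem toF_bijective (N : ℕ) : Function.Bijective (toF N) := by
  refine ⟨(toF N).toRingHom.injective, fun y => ?_⟩
  have hy : (y : LaurentSeries Kc) ∈ (expFB N).fieldRange := by
    rw [fieldRange_expFB]
    exact y.2
  obtain ⟨x, hx⟩ := hy
  exact ⟨x, Subtype.ext hx⟩

/-- the isomorphism `Frac (B_N) ≃ F_N`. -/
def equivF (N : ℕ) : FB N ≃ₐ[Kc] FC N :=
  AlgEquiv.ofBijective (toF N) (toF_bijective N)

theorem coe_equivF (N : ℕ) (x : FB N) :
    ((equivF N x : FC N) : LaurentSeries Kc) = expFB N x := rfl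

/-- `j(q^d)` as an element of `F_N`. -/
def jF (N d : ℕ) [NeZero d] (hd : d ∣ N) : FC N :=
  ⟨qExpand Kc d (jqModC Kc), by
    rw [← coeffEmb_qExpand_jq]
    exact coeffEmb_mem_laurentBaseChange Kc (jqd_mem_full N hd)⟩

theorem coe_jF (N d : ℕ) [NeZero d] (hd : d ∣ N) :
    ((jF N d hd : FC N) : LaurentSeries Kc) =
      qExpand Kc d (jqModC Kc) := rfl

theorem equivF_jdB (N d : ℕ) [NeZero d] (hd : d ∣ N) :
    equivF N (algebraMap (BN N) (FB N) (jdB N d hd)) = jF N d hd := by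
  apply Subtype.ext
  rw [coe_equivF, expFB_algebraMap, expB_jdB, coe_jF]

/-! ### the involution -/

/-- the Atkin–Lehner involution on `Frac (B_N)`. -/
def wFB (D : ALData) : FB (D.Q * D.R) ≃ₐ[Kc] FB (D.Q * D.R) :=
  IsFractionRing.algEquivOfAlgEquiv (wB D)

theorem wFB_algebraMap (D : ALData) (f : BN (D.Q * D.R)) :
    wFB D (algebraMap (BN (D.Q * D.R)) (FB (D.Q * D.R)) f) =
      algebraMap (BN (D.Q * D.R)) (FB (D.Q * D.R)) (wB D f) :=
  IsFractionRing.algEquivOfAlgEquiv_algebraMap (wB D) f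

theorem wFB_wFB (D : ALData) (x : FB (D.Q * D.R)) : wFB D (wFB D x) = x := by
  obtain ⟨a, b, hb, rfl⟩ := IsFractionRing.div_surjective (A := BN (D.Q * D.R)) x
  rw [map_div₀, map_div₀, wFB_algebraMap, wFB_algebraMap, wFB_algebraMap, wFB_algebraMap,
    wB_wB, wB_wB]

/-- **the Atkin–Lehner involution `w_Q` of the function field of `X₀(Q R)` over `ℂ`.** -/
def atkinLehnerC (D : ALData) :
    FC (D.Q * D.R) ≃ₐ[Kc] FC (D.Q * D.R) :=
  (equivF (D.Q * D.R)).symm.trans ((wFB D).trans (equivF (D.Q * D.R)))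

theorem atkinLehnerC_apply (D : ALData) (x : FC (D.Q * D.R)) :
    atkinLehnerC D x = equivF (D.Q * D.R) (wFB D ((equivF (D.Q * D.R)).symm x)) := rfl

/-- `w_Q ∘ w_Q = id`. -/
theorem atkinLehnerC_atkinLehnerC (D : ALData) (x : FC (D.Q * D.R)) :
    atkinLehnerC D (atkinLehnerC D x) = x := by
  rw [atkinLehnerC_apply, atkinLehnerC_apply, AlgEquiv.symm_apply_apply, wFB_wFB,
    AlgEquiv.apply_symm_apply]

/-- **`w_Q (j(q^{d₁ d₂})) = j(q^{e₁ d₂})`** for `d₁ e₁ = Q`, `d₂ ∣ R`. -/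
theorem atkinLehnerC_jF (D : ALData) (d₁ e₁ d₂ f₂ : ℕ) [NeZero (d₁ * d₂)] [NeZero (e₁ * d₂)]
    (h1 : d₁ * e₁ = D.Q) (h2 : d₂ * f₂ = D.R) (hd : d₁ * d₂ ∣ D.Q * D.R)
    (hd' : e₁ * d₂ ∣ D.Q * D.R) :
    atkinLehnerC D (jF (D.Q * D.R) (d₁ * d₂) hd) = jF (D.Q * D.R) (e₁ * d₂) hd' := by
  rw [atkinLehnerC_apply, ← equivF_jdB, AlgEquiv.symm_apply_apply, wFB_algebraMap,
    wB_jdB D d₁ e₁ d₂ f₂ h1 h2 hd hd', equivF_jdB]

theorem jF_congr (N : ℕ) {d d' : ℕ} [NeZero d] [NeZero d'] (h : d = d') (hd : d ∣ N)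
    (hd' : d' ∣ N) : jF N d hd = jF N d' hd' := by
  subst h
  rfl

/-- `w_Q (j) = j(q^Q)`. -/
theorem atkinLehnerC_j (D : ALData) [NeZero D.Q] :
    atkinLehnerC D (jF (D.Q * D.R) 1 (one_dvd _)) = jF (D.Q * D.R) D.Q (Dvd.intro _ rfl) := by
  haveI : NeZero (1 * 1) := ⟨by norm_num⟩
  haveI : NeZero (D.Q * 1) := ⟨by rw [mul_one]; exact D.hQ.ne'⟩
  have h := atkinLehnerC_jF D 1 D.Q 1 D.R (one_mul _) (one_mul _) (by simp)
    (by rw [mul_one]; exact Dvd.intro _ rfl)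
  rw [jF_congr (D.Q * D.R) (one_mul 1).symm (one_dvd _) (by simp), h]
  exact jF_congr _ (mul_one _) _ _

/-- `w_Q (j(q^Q)) = j`. -/
theorem atkinLehnerC_jQ (D : ALData) [NeZero D.Q] :
    atkinLehnerC D (jF (D.Q * D.R) D.Q (Dvd.intro _ rfl)) = jF (D.Q * D.R) 1 (one_dvd _) := by
  rw [← atkinLehnerC_j, atkinLehnerC_atkinLehnerC]


end Fermat.Agent.F3DegW
end
end MergeWrap_F3_I2_Deg_ALC
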