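import Mathlib
import Fermat.Agent.MUL.F3.I2.Final
import Fermat.Agent.MUL.F3.I2.Deg.KappaPush

section MergeWrap_F3_I2_Deg_Canon -- from F3/I2/Deg/Canon.lean

set_option autoImplicit false
set_option linter.style.haveILetI false
set_option linter.unusedSectionVars false

noncomputable section

namespace Fermat.Agent.F3Deg

open UpperHalfPlane CongruenceSubgroup ModularCurve AlgebraicCurve
open Fermat.Agent.F3I2 Fermat.Agent.LDeg Fermat.Agent.F3EC

section Level

variable (N : ℕ) [NeZero N]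

theorem exists_isKappa_descBc {n : ℕ} (hn : 0 < n) (c : HomPar N) :
    ∃ y : JZero N, IsKappa (descBc N) n c y :=
  exists_isKappa (Fermat.Agent.F3RatioCusp.dictD2a N) (Fermat.Agent.F3Charts.dictHPD N)
    (fun m hm x' hx' => by
      obtain ⟨x, hx, -⟩ := descBc_surjective_torsion N m hm x' hx'
      exact ⟨x, hx⟩) hn c

open Classical in
/-- The canonical `κ_n`, as a function. -/
def kappaFun (n : ℕ) (c : HomPar N) : JZero N :=
  if hn : 0 < n then (exists_isKappa_descBc N hn c).choose else 0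

variable {N}

theorem isKappa_kappaFun {n : ℕ} (hn : 0 < n) (c : HomPar N) :
    IsKappa (descBc N) n c (kappaFun N n c) := by
  rw [kappaFun, dif_pos hn]
  exact (exists_isKappa_descBc N hn c).choose_spec

theorem kappaFun_zero_level (c : HomPar N) : kappaFun N 0 c = 0 := by
  rw [kappaFun, dif_neg (lt_irrefl 0)]

/-- **Characterisation**: `κ_n(c)` is the unique `y` with `IsKappa n c y`. -/
theorem kappaFun_eq_of_isKappa {n : ℕ} (hn : 0 < n) {c : HomPar N} {y : JZero N}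
    (h : IsKappa (descBc N) n c y) : kappaFun N n c = y :=
  (isKappa_kappaFun hn c).unique (descBc_injective N) hn.ne' h

theorem nsmul_kappaFun (n : ℕ) (c : HomPar N) : n • kappaFun N n c = 0 := by
  rcases Nat.eq_zero_or_pos n with rfl | hn
  · simp
  · exact (isKappa_kappaFun hn c).nsmul_eq_zero (descBc_injective N)

theorem kappaFun_mem (n : ℕ) (c : HomPar N) : kappaFun N n c ∈ Fermat.Agent.F3.Jtors N n := by
  rw [Submodule.mem_torsionBy_iff, natCast_zsmul]
  exact nsmul_kappaFun n c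

theorem kappaFun_map_zero (n : ℕ) : kappaFun N n 0 = 0 := by
  rcases Nat.eq_zero_or_pos n with rfl | hn
  · exact kappaFun_zero_level 0
  · exact kappaFun_eq_of_isKappa hn (IsKappa.zero n)

theorem kappaFun_add (n : ℕ) (c c' : HomPar N) :
    kappaFun N n (c + c') = kappaFun N n c + kappaFun N n c' := by
  rcases Nat.eq_zero_or_pos n with rfl | hn
  · simp [kappaFun_zero_level]
  · exact kappaFun_eq_of_isKappa hn
      ((isKappa_kappaFun hn c).add hn.ne' (isKappa_kappaFun hn c'))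

variable (N)

/-- **The canonical `κ_n : HomPar N →ₗ[ℤ] J₀(N)(ℚ̄)[n]`.** -/
def kappaC (n : ℕ) : HomPar N →ₗ[ℤ] Fermat.Agent.F3.Jtors N n :=
  AddMonoidHom.toIntLinearMap
    { toFun := fun c => (⟨kappaFun N n c, kappaFun_mem n c⟩ : Fermat.Agent.F3.Jtors N n)
      map_zero' := Subtype.ext (kappaFun_map_zero n)
      map_add' := fun c c' => Subtype.ext (kappaFun_add n c c') }

variable {N}

@[simp]
theorem coe_kappaC (n : ℕ) (c : HomPar N) :
    ((kappaC N n c : Fermat.Agent.F3.Jtors N n) : JZero N) = kappaFun N n c := rfl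

theorem isKappa_kappaC {n : ℕ} (hn : 0 < n) (c : HomPar N) :
    IsKappa (descBc N) n c ((kappaC N n c : Fermat.Agent.F3.Jtors N n) : JZero N) :=
  isKappa_kappaFun hn c

theorem kappaC_eq_of_isKappa {n : ℕ} (hn : 0 < n) {c : HomPar N} {y : JZero N}
    (h : IsKappa (descBc N) n c y) :
    ((kappaC N n c : Fermat.Agent.F3.Jtors N n) : JZero N) = y :=
  kappaFun_eq_of_isKappa hn h

/-- The kernel of `κ_n` is `n · HomPar N`. -/
theorem kappaC_ker {n : ℕ} (hn : 0 < n) {c : HomPar N} (hc : kappaC N n c = 0) :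
    ∃ c' : HomPar N, c = (n : ℤ) • c' := by
  have h1 : kappaFun N n c = 0 := by
    rw [← coe_kappaC, hc]
    rfl
  have h2 := isKappa_kappaFun hn c
  rw [h1] at h2
  exact h2.ker (Fermat.Agent.F3Charts.dictConst N) hn.ne'

/-- Compatibility: `d • κ_{dn} = κ_n`. -/
theorem kappaC_compat {n d : ℕ} (hn : 0 < n) (hd : 0 < d) (c : HomPar N) :
    (d : ℤ) • ((kappaC N (d * n) c : Fermat.Agent.F3.Jtors N (d * n)) : JZero N) =
      (kappaC N n c : JZero N) := by
  rw [coe_kappaC, coe_kappaC, natCast_zsmul]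
  exact (kappaFun_eq_of_isKappa hn
    ((isKappa_kappaFun (Nat.mul_pos hd hn) c).compat hd.ne')).symm

/-- Hecke equivariance: `κ_n ∘ T_ℓ = T_ℓ ∘ κ_n` for `ℓ ∤ N`. -/
theorem kappaC_hecke (n : ℕ) (ℓ : Nat.Primes) (hℓN : ¬ (ℓ : ℕ) ∣ N) (c : HomPar N) :
    kappaC N n (heckeHom N ℓ c) = Fermat.Agent.F3.heckeTors N n ℓ (kappaC N n c) := by
  haveI : NeZero (ℓ : ℕ) := ⟨ℓ.2.ne_zero⟩
  apply Subtype.ext
  rw [coe_kappaC]
  have h1 : ((Fermat.Agent.F3.heckeTors N n ℓ (kappaC N n c) : Fermat.Agent.F3.Jtors N n) :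
      JZero N) = heckeOperatorBar N ℓ (kappaFun N n c) := rfl
  rw [h1]
  rcases Nat.eq_zero_or_pos n with rfl | hn
  · rw [kappaFun_zero_level, kappaFun_zero_level, map_zero]
  · exact kappaFun_eq_of_isKappa hn
      ((isKappa_kappaFun hn c).hecke ℓ hℓN
        (Fermat.Agent.HeckeInputs.hi_heckeInputsAlong_complex N ℓ) (dictD3 N ℓ ℓ.2 hℓN) hn.ne'
        (descBc_hecke N ℓ (kappaFun N n c)))

end Level

section Push

variable {N₀ q : ℕ} [NeZero N₀] [NeZero q]

/-- **(Dα)**: `α_* (κ^{N₀ q}_n c) = κ^{N₀}_n (tr c)`. -/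
theorem kappaC_pushAlpha (hq : q.Prime) (hqN : ¬ q ∣ N₀) (n : ℕ) (c : HomPar (N₀ * q)) :
    pushAlpha N₀ q ((kappaC (N₀ * q) n c : Fermat.Agent.F3.Jtors (N₀ * q) n) : JZero (N₀ * q)) =
      ((kappaC N₀ n (coresPar N₀ q c) : Fermat.Agent.F3.Jtors N₀ n) : JZero N₀) := by
  rw [coe_kappaC, coe_kappaC]
  rcases Nat.eq_zero_or_pos n with rfl | hn
  · rw [kappaFun_zero_level, kappaFun_zero_level, map_zero]
  · exact (kappaFun_eq_of_isKappa hn (IsKappa.pushAlpha hq hqN (isKappa_kappaFun hn c))).symm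

/-- If the transfer of `c` vanishes, then `κ_n(c)` is killed by `α_*`. -/
theorem pushAlpha_kappaC_eq_zero (hq : q.Prime) (hqN : ¬ q ∣ N₀) (n : ℕ)
    {c : HomPar (N₀ * q)} (hc : coresPar N₀ q c = 0) :
    pushAlpha N₀ q ((kappaC (N₀ * q) n c : Fermat.Agent.F3.Jtors (N₀ * q) n) : JZero (N₀ * q))
      = 0 := by
  rw [kappaC_pushAlpha hq hqN, hc, map_zero]
  rfl

end Push

end Fermat.Agent.F3Deg
end
end MergeWrap_F3_I2_Deg_Canon
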