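import Mathlib
import Fermat.Agent.MUL.F3.I2.Deg.KappaPush
import Fermat.Agent.MUL.F3.I2.Deg.ALPush
import Fermat.Agent.MUL.Orig.F3.Galois.HeckeComm

section MergeWrap_F3_I2_Deg_PushGal -- from F3/I2/Deg/PushGal.lean

set_option autoImplicit false
set_option linter.style.haveILetI false
set_option linter.unusedSectionVars false

noncomputable section

namespace Fermat.Agent.F3DegP

open ModularCurve AlgebraicCurve
open Fermat.Agent.F3I2 Fermat.Agent.F3G Fermat.Agent.F3Deg
open Fermat.Agent.AtkinLehner (ALData)

section Generic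

variable {K F F' : Type*} [Field K] [Field F] [Field F'] [Algebra K F] [Algebra K F']
variable (φ : F →ₐ[K] F') (hφ : φ.toRingHom.IsIntegral)
variable (hfin : FiniteAlong K φ) (hN : NormFormulaAlong K φ hfin)

/-- The pushforward of divisor classes commutes with intertwined semilinear automorphisms. -/
theorem pushPic_smul {g : SemilinearAut K F} {g' : SemilinearAut K F'}
    (h : SemilinearAut.IntertwinesAlong φ.toRingHom g g') (x : Pic0 K F') :
    pushPic φ hφ hfin hN (g' • x) = g • pushPic φ hφ hfin hN x := by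
  obtain ⟨E, rfl⟩ := Pic0.mk_surjective x
  rw [SemilinearAut.pic0_smul_mk, pushPic_mk, pushPic_mk, SemilinearAut.pic0_smul_mk]
  refine congrArg Pic0.mk (Subtype.ext ?_)
  rw [coe_pushDegZero, SemilinearAut.coe_degZeroSMulHom, SemilinearAut.coe_degZeroSMulHom,
    coe_pushDegZero]
  exact pushforwardAlong_smul φ hφ h E

end Generic

section Alpha

variable (N₀ q : ℕ) [NeZero N₀] [NeZero q]

/-- **`α_*` commutes with the Galois action.** -/
theorem pushAlpha_smul (σ : AlgebraicClosure ℚ ≃ₐ[ℚ] AlgebraicClosure ℚ) (y : JZero (N₀ * q)) :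
    pushAlpha N₀ q (σ • y) = σ • pushAlpha N₀ q y := by
  unfold pushAlpha pushAlphaAlong
  exact pushPic_smul _ _ _ _ (intertwines_heckeAlphaBar N₀ q σ) y

end Alpha

section W

variable (D : ALData)

attribute [local instance] neZero_level

/-- `w` intertwines the coefficientwise Galois actions (helper84). -/
theorem intertwines_atkinLehner (σ : AlgebraicClosure ℚ ≃ₐ[ℚ] AlgebraicClosure ℚ) :
    SemilinearAut.IntertwinesAlong
      (Fermat.Agent.AtkinLehner.atkinLehner D).toAlgHom.toRingHom
      (arithmeticGalois (modularFunctionFieldFull (D.Q * D.R)) σ)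
      (arithmeticGalois (modularFunctionFieldFull (D.Q * D.R)) σ) := by
  intro x
  exact (Fermat.Agent.AtkinLehner.atkinLehner_arithmeticRingAut D σ x).symm

/-- **`w_*` commutes with the Galois action.** -/
theorem pushW_smul (σ : AlgebraicClosure ℚ ≃ₐ[ℚ] AlgebraicClosure ℚ)
    (y : JZero (D.Q * D.R)) : pushW D (σ • y) = σ • pushW D y := by
  unfold pushW pushAut
  exact pushPic_smul _ _ _ _ (intertwines_atkinLehner D σ) y

end W

end Fermat.Agent.F3DegP
end
end MergeWrap_F3_I2_Deg_PushGal
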